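/-
S19, geometric core, brick (K2) of the FLIP design (helper356): ALMOST ALL FIBRES OF A SEPARATING VARIABLE
ARE UNRAMIFIED, in any characteristic.

`K` algebraically closed, `x : F` transcendental, `F / K(x)` finite separable.  Then there is a finite set
`S` of places such that every zero `v ∉ S` of a function `x - c` (`c : K`) is a SIMPLE zero.
Proof: `R = K[x]`, `B` = integral closure of `R` in `F`; a place `v` with `ord_v (x - c) ≥ 2` has centre `w`
on `B` with `w² ∣ (x - c) B`, hence `w ∣ different(B / R)` (Mathlib `pow_sub_one_dvd_differentIdeal_aux`),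
and the different is a nonzero ideal.

Imports: Mathlib + the landed S24 place/Dedekind dictionary (`Fermat.Agent.S24.A564.SumOrd`).
-/
import Fermat.Agent.S24.A564.SumOrd

set_option autoImplicit false

namespace Fermat.Agent.S19.Unram356

open AlgebraicCurve IntermediateField IsDedekindDomain Fermat.Agent.S24.A564.SO WithZero
open scoped IntermediateField.algebraAdjoinAdjoin nonZeroDivisors

variable {K F : Type*} [Field K] [Field F] [Algebra K F]

/-- `x - c` as an element of `K[x]`. -/
def subConst (x : F) (c : K) : Algebra.adjoin K {x} :=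
  ⟨x, Algebra.self_mem_adjoin_singleton K x⟩ - algebraMap K (Algebra.adjoin K {x}) c

theorem coe_subConst (x : F) (c : K) :
    ((subConst x c : Algebra.adjoin K {x}) : F) = x - algebraMap K F c := rfl

/-- every element of `K[x]` is congruent to a constant modulo `x - c`. -/
theorem exists_const_sub_mem_span_subConst (x : F) (c : K) (r : Algebra.adjoin K {x}) :
    ∃ d : K, r - algebraMap K (Algebra.adjoin K {x}) d ∈ Ideal.span {subConst x c} := by
  have hr : (r : F) ∈ (Polynomial.aeval x : Polynomial K →ₐ[K] F).range := by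
    rw [← Algebra.adjoin_singleton_eq_range_aeval]; exact r.2
  obtain ⟨q, hq⟩ := hr
  have hq' : (Polynomial.aeval x q : F) = (r : F) := hq
  refine ⟨q.eval c, Ideal.mem_span_singleton'.mpr
    ⟨⟨Polynomial.aeval x (q /ₘ (Polynomial.X - Polynomial.C c)),
      Polynomial.aeval_mem_adjoin_singleton K x⟩, ?_⟩⟩
  apply Subtype.ext
  show Polynomial.aeval x (q /ₘ (Polynomial.X - Polynomial.C c)) * (x - algebraMap K F c)
    = (r : F) - algebraMap K F (q.eval c)
  have h1 : q = (Polynomial.X - Polynomial.C c) * (q /ₘ (Polynomial.X - Polynomial.C c))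
      + Polynomial.C (q.eval c) := by
    have := Polynomial.modByMonic_add_div q (Polynomial.X - Polynomial.C c)
    rw [Polynomial.modByMonic_X_sub_C_eq_C_eval] at this
    rw [add_comm]
    exact this.symm
  have h2 := congrArg (Polynomial.aeval x) h1
  rw [map_add, map_mul, map_sub, Polynomial.aeval_X, Polynomial.aeval_C] at h2
  rw [← hq', h2, Polynomial.aeval_C]
  ring

theorem span_subConst_ne_top (x : F) (hx : Transcendental K x) (c : K) :
    Ideal.span {subConst x c} ≠ ⊤ := by
  intro htop
  have h1 : (1 : Algebra.adjoin K {x}) ∈ Ideal.span {subConst x c} := by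
    rw [htop]; trivial
  obtain ⟨t, ht⟩ := Ideal.mem_span_singleton'.mp h1
  have ht2 : (t : F) ∈ (Polynomial.aeval x : Polynomial K →ₐ[K] F).range := by
    rw [← Algebra.adjoin_singleton_eq_range_aeval]; exact t.2
  obtain ⟨q, hq⟩ := ht2
  have hq' : (Polynomial.aeval x q : F) = (t : F) := hq
  have h2 : (t : F) * (x - algebraMap K F c) = 1 := congrArg Subtype.val ht
  have h3 : Polynomial.aeval x (q * (Polynomial.X - Polynomial.C c) - 1) = 0 := by
    simp [hq', h2]
  have h4 : q * (Polynomial.X - Polynomial.C c) - 1 = 0 := by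
    by_contra hne
    exact hx ⟨_, hne, h3⟩
  have h5 := congrArg (fun p : Polynomial K => p.eval c) h4
  simp at h5

theorem span_subConst_isMaximal (x : F) (hx : Transcendental K x) (c : K) :
    (Ideal.span {subConst x c}).IsMaximal := by
  rw [Ideal.isMaximal_iff]
  refine ⟨fun h1 => span_subConst_ne_top x hx c ((Ideal.eq_top_iff_one _).mpr h1), ?_⟩
  intro J y hJ hy hyJ
  obtain ⟨d, hd⟩ := exists_const_sub_mem_span_subConst x c y
  have hd0 : d ≠ 0 := by
    rintro rfl
    apply hy
    simpa using hd
  have hdJ : algebraMap K (Algebra.adjoin K {x}) d ∈ J := by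
    have := J.sub_mem hyJ (hJ hd)
    simpa using this
  have : algebraMap K (Algebra.adjoin K {x}) d⁻¹ * algebraMap K (Algebra.adjoin K {x}) d ∈ J :=
    J.mul_mem_left _ hdJ
  rwa [← map_mul, inv_mul_cancel₀ hd0, map_one] at this

theorem subConst_ne_zero (x : F) (hx : Transcendental K x) (c : K) : subConst x c ≠ 0 := by
  intro h
  have h1 : x - algebraMap K F c = 0 := by
    rw [← coe_subConst, h]; rfl
  apply hx
  rw [sub_eq_zero.mp h1]
  exact isAlgebraic_algebraMap c

/-- **(K2)** There are only finitely many ramified places over the `x`-line: there is a finite set `S`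
of places such that every zero of `x - c` outside `S` is simple. -/
theorem exists_finset_simple_zeros [IsAlgClosed K] (x : F) (hx : Transcendental K x)
    [FiniteDimensional K⟮x⟯ F] [Algebra.IsSeparable K⟮x⟯ F] :
    ∃ S : Finset (Place K F), ∀ (c : K) (v : Place K F),
      0 < v.ord (x - algebraMap K F c) → v ∉ S → v.ord (x - algebraMap K F c) = 1 := by
  classical
  let R := Algebra.adjoin K {x}
  let B := integralClosure R F
  have : IsPrincipalIdealRing R := adjoin_isPrincipalIdealRing x
  have : IsDedekindDomain B := IsIntegralClosure.isDedekindDomain R K⟮x⟯ F B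
  have : IsFractionRing B F := IsIntegralClosure.isFractionRing_of_finite_extension R K⟮x⟯ F B
  have : Module.Finite R B := IsIntegralClosure.finite R K⟮x⟯ F B
  -- the different is nonzero
  have hdiff : differentIdeal R B ≠ ⊥ := by
    rw [ne_eq, ← FractionalIdeal.coeIdeal_inj (K := F), coeIdeal_differentIdeal R K⟮x⟯ F B]
    simp
  have hfin : {w : HeightOneSpectrum B | w.asIdeal ∣ differentIdeal R B}.Finite :=
    Ideal.finite_factors hdiff
  refine ⟨hfin.toFinset.image (Place.ofHeightOneSpectrum (K := K) (F := F)), ?_⟩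
  intro c v hv hvS
  have hxc0 : x - algebraMap K F c ≠ 0 := by
    intro h
    rw [h] at hv
    simp at hv
  have hmem1 : x - algebraMap K F c ∈ v.toValuationSubring := Place_mem_of_ord_nonneg v hv.le
  have hxmem : x ∈ v.toValuationSubring := by
    have := add_mem hmem1 (v.algebraMap_mem' c)
    rwa [sub_add_cancel] at this
  have hR : R ≤ Place_subalgebra v := Place_adjoin_le v hxmem
  have hB : ∀ b : B, algebraMap B F b ∈ v.toValuationSubring := fun b =>
    Place_mem_of_isIntegral v hR b.2
  obtain ⟨w, rfl⟩ := Place_exists_heightOneSpectrum_of_le v hB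
  have hw : ¬ w.asIdeal ∣ differentIdeal R B := by
    intro hdvd
    apply hvS
    exact Finset.mem_image.mpr ⟨w, hfin.mem_toFinset.mpr hdvd, rfl⟩
  by_contra hne
  have h2 : 2 ≤ (Place.ofHeightOneSpectrum (K := K) (F := F) w).ord (x - algebraMap K F c) := by
    omega
  rw [Place_ofHeightOneSpectrum_ord] at h2
  let t : R := subConst x c
  have htF : algebraMap B F (algebraMap R B t) = x - algebraMap K F c := rfl
  have hval : w.valuation F (x - algebraMap K F c) = w.intValuation (algebraMap R B t) := by
    rw [← htF, HeightOneSpectrum.valuation_of_algebraMap]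
  have hne0 : w.valuation F (x - algebraMap K F c) ≠ 0 := (Valuation.ne_zero_iff _).mpr hxc0
  have hle : w.intValuation (algebraMap R B t) ≤ exp (-((2 : ℕ) : ℤ)) := by
    rw [← hval, ← exp_log hne0, exp_le_exp]
    push_cast
    omega
  have hdvd : w.asIdeal ^ 2 ∣ Ideal.span {algebraMap R B t} :=
    (w.intValuation_le_pow_iff_dvd _ 2).mp hle
  have hmap : Ideal.map (algebraMap R B) (Ideal.span {t}) = Ideal.span {algebraMap R B t} := by
    rw [Ideal.map_span, Set.image_singleton]
  have hmax : (Ideal.span {t}).IsMaximal := span_subConst_isMaximal x hx c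
  have hp0 : Ideal.span {t} ≠ ⊥ := by
    rw [Ne, Ideal.span_singleton_eq_bot]
    exact subConst_ne_zero x hx c
  have key := pow_sub_one_dvd_differentIdeal_aux R K⟮x⟯ F (p := Ideal.span {t}) w.asIdeal
    (e := 2) (by norm_num) hp0 (by rw [hmap]; exact hdvd)
  apply hw
  simpa using key

end Fermat.Agent.S19.Unram356
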